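import Mathlib

/-!
# The theorem of Latimer and MacDuffee, I

Let `Z` be a principal ideal domain and `R = Z[θ]` a domain which is free of rank `n` over `Z`;
`f` is the minimal polynomial of `θ`. For a nonzero ideal `I` of `R` and a basis `b` of `I` over
`Z` the multiplication by `θ` is given by a matrix `A`: `θ b_i = ∑ A_ij b_j` (`Describes`).

* `describes_charpoly`: then the characteristic polynomial of `A` is `f`;
* `exists_describes`: every matrix with characteristic polynomial `f` arises in this way;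
* `isConj_iff`: two such matrices are conjugate by a matrix in `GL_n(Z)` if and only if the two
  ideals `I`, `J` are in the same class: `x I = y J` for some `x, y ≠ 0`.
-/

namespace Fermat.Agent.Cor.LM

open Polynomial Module

variable {Z R : Type*} [CommRing Z] [CommRing R] [Algebra Z R]
variable {ι : Type*} [Fintype ι]

/-- The matrix `A` describes the multiplication by `θ` on the ideal `I` in some basis. -/
def Describes (θ : R) (A : Matrix ι ι Z) (I : Ideal R) : Prop :=
  ∃ b : Basis ι Z I, ∀ i, θ • b i = ∑ j, A i j • b j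

/-- Two ideals are in the same class if `x I = y J` with `x, y ≠ 0`. -/
def SameClass (I J : Ideal R) : Prop :=
  ∃ x y : R, x ≠ 0 ∧ y ≠ 0 ∧ Ideal.span {x} * I = Ideal.span {y} * J

theorem SameClass.refl [Nontrivial R] (I : Ideal R) : SameClass I I :=
  ⟨1, 1, one_ne_zero, one_ne_zero, rfl⟩

theorem SameClass.symm {I J : Ideal R} (h : SameClass I J) : SameClass J I := by
  obtain ⟨x, y, hx, hy, h⟩ := h
  exact ⟨y, x, hy, hx, h.symm⟩

theorem SameClass.trans [IsDomain R] {I J K : Ideal R} (h : SameClass I J)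
    (h' : SameClass J K) : SameClass I K := by
  obtain ⟨x, y, hx, hy, h⟩ := h
  obtain ⟨x', y', hx', hy', h'⟩ := h'
  refine ⟨x * x', y * y', mul_ne_zero hx hx', mul_ne_zero hy hy', ?_⟩
  calc Ideal.span {x * x'} * I = Ideal.span {x'} * (Ideal.span {x} * I) := by
        rw [← mul_assoc, Ideal.span_singleton_mul_span_singleton, mul_comm x']
    _ = Ideal.span {y} * (Ideal.span {x'} * J) := by rw [h]; ring
    _ = Ideal.span {y * y'} * K := by
        rw [h', ← mul_assoc, Ideal.span_singleton_mul_span_singleton]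

/-- An additive bijection commuting with `θ` commutes with `Z[θ]`. -/
theorem commute_of_adjoin {θ : R} (hθ : Algebra.adjoin Z {θ} = ⊤) {I J : Ideal R}
    (T : I →ₗ[Z] J) (hT : ∀ a, T (θ • a) = θ • T a) (r : R) : ∀ a, T (r • a) = r • T a := by
  have hr : r ∈ Algebra.adjoin Z {θ} := hθ ▸ Algebra.mem_top
  induction hr using Algebra.adjoin_induction with
  | mem x hx =>
    rw [Set.mem_singleton_iff] at hx
    subst hx
    exact hT
  | algebraMap z =>
    intro a
    rw [algebraMap_smul, algebraMap_smul, map_smul]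
  | add x y _ _ hx hy =>
    intro a
    rw [add_smul, add_smul, map_add, hx, hy]
  | mul x y _ _ hx hy =>
    intro a
    rw [mul_smul, mul_smul, hx, hy]

/-- Change of basis: the same ideal, two matrices. -/
theorem isConj_of_describes [DecidableEq ι] {θ : R} {A B : Matrix ι ι Z} {I : Ideal R}
    (hA : Describes θ A I) (hB : Describes θ B I) : IsConj A B := by
  obtain ⟨b, hb⟩ := hA
  obtain ⟨c, hc⟩ := hB
  -- `c_i = ∑ P_ij b_j`
  set P : Matrix ι ι Z := fun i j => b.repr (c i) j with hP
  set Q : Matrix ι ι Z := fun i j => c.repr (b i) j with hQ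
  have hcP : ∀ i, c i = ∑ j, P i j • b j := fun i => (b.sum_repr (c i)).symm
  have hbQ : ∀ i, b i = ∑ j, Q i j • c j := fun i => (c.sum_repr (b i)).symm
  have hPQ : P * Q = 1 := by
    have h := congrArg Matrix.transpose (c.toMatrix_mul_toMatrix_flip b)
    rw [Matrix.transpose_mul, Matrix.transpose_one] at h
    exact h
  have hQP : Q * P = 1 := by
    have h := congrArg Matrix.transpose (b.toMatrix_mul_toMatrix_flip c)
    rw [Matrix.transpose_mul, Matrix.transpose_one] at h
    exact h
  refine ⟨⟨P, Q, hPQ, hQP⟩, ?_⟩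
  change P * A = B * P
  have key : ∀ i, ∑ k, (P * A) i k • b k = ∑ k, (B * P) i k • b k := by
    intro i
    have h1 : θ • c i = ∑ k, (P * A) i k • b k := by
      rw [hcP i, Finset.smul_sum]
      simp only [Matrix.mul_apply, Finset.sum_smul]
      rw [Finset.sum_comm]
      refine Finset.sum_congr rfl fun j _ => ?_
      rw [smul_comm, hb j, Finset.smul_sum]
      exact Finset.sum_congr rfl fun k _ => by rw [smul_smul]
    have h2 : θ • c i = ∑ k, (B * P) i k • b k := by
      rw [hc i]
      simp only [Matrix.mul_apply, Finset.sum_smul]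
      rw [Finset.sum_comm]
      refine Finset.sum_congr rfl fun j _ => ?_
      rw [hcP j, Finset.smul_sum]
      exact Finset.sum_congr rfl fun k _ => by rw [smul_smul]
    rw [← h1, ← h2]
  ext i k
  have h := congrArg (fun x => b.repr x k) (key i)
  simpa [Finsupp.single_apply] using h

/-- If `x I = y J`, the same matrices describe `I` and `J`. -/
theorem Describes.of_sameClass [IsDomain R] {θ : R} {A : Matrix ι ι Z} {I J : Ideal R}
    (hA : Describes θ A I) (h : SameClass I J) : Describes θ A J := by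
  obtain ⟨b, hb⟩ := hA
  obtain ⟨x, y, hx, hy, h⟩ := h
  have h1 : ∀ a : I, ∃ c : J, x * (a : R) = y * (c : R) := by
    intro a
    have h2 : x * (a : R) ∈ Ideal.span {y} * J := by
      rw [← h]
      exact Ideal.mul_mem_mul (Ideal.mem_span_singleton_self x) a.2
    obtain ⟨z, hz, h3⟩ := Ideal.mem_span_singleton_mul.1 h2
    exact ⟨⟨z, hz⟩, h3.symm⟩
  have h1' : ∀ c : J, ∃ a : I, x * (a : R) = y * (c : R) := by
    intro c
    have h2 : y * (c : R) ∈ Ideal.span {x} * I := by
      rw [h]
      exact Ideal.mul_mem_mul (Ideal.mem_span_singleton_self y) c.2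
    obtain ⟨z, hz, h3⟩ := Ideal.mem_span_singleton_mul.1 h2
    exact ⟨⟨z, hz⟩, h3⟩
  choose F hF using h1
  choose G hG using h1'
  let T : I →ₗ[R] J :=
    { toFun := F
      map_add' := fun a a' => by
        apply Subtype.ext
        apply mul_left_cancel₀ hy
        rw [← hF, Submodule.coe_add, Submodule.coe_add, mul_add, mul_add, hF, hF]
      map_smul' := fun r a => by
        apply Subtype.ext
        apply mul_left_cancel₀ hy
        rw [← hF, RingHom.id_apply, Submodule.coe_smul, Submodule.coe_smul, smul_eq_mul,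
          smul_eq_mul, mul_left_comm, hF, mul_left_comm] }
  let e : I ≃ₗ[R] J := LinearEquiv.ofBijective T (by
    constructor
    · intro a a' haa
      have h3 : (F a : R) = F a' := congrArg Subtype.val haa
      apply Subtype.ext
      apply mul_left_cancel₀ hx
      rw [hF, hF, h3]
    · intro c
      refine ⟨G c, ?_⟩
      apply Subtype.ext
      apply mul_left_cancel₀ hy
      change y * ((F (G c) : J) : R) = y * (c : R)
      rw [← hF, hG])
  refine ⟨b.map (e.restrictScalars Z), fun i => ?_⟩
  have h4 : θ • e (b i) = ∑ j, A i j • e (b j) := by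
    rw [← map_smul, hb i, map_sum]
    refine Finset.sum_congr rfl fun j _ => ?_
    exact (e.restrictScalars Z).map_smul _ _
  simpa using h4

/-- Conjugate matrices describe ideals in the same class. -/
theorem sameClass_of_isConj [IsDomain R] [DecidableEq ι] {θ : R}
    (hθ : Algebra.adjoin Z {θ} = ⊤) {A B : Matrix ι ι Z} {I J : Ideal R} (hI : I ≠ ⊥)
    (hA : Describes θ A I) (hB : Describes θ B J) (h : IsConj A B) : SameClass I J := by
  obtain ⟨b, hb⟩ := hA
  obtain ⟨c, hc⟩ := hB
  obtain ⟨P, hP⟩ := h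
  have hP' : (P : Matrix ι ι Z) * A = B * (P : Matrix ι ι Z) := hP
  have hinv : A * (P⁻¹ : (Matrix ι ι Z)ˣ).1 = (P⁻¹ : (Matrix ι ι Z)ˣ).1 * B := by
    have h1 := congrArg (fun M => (P⁻¹ : (Matrix ι ι Z)ˣ).1 * M * (P⁻¹ : (Matrix ι ι Z)ˣ).1) hP'
    simp only [← mul_assoc, Units.inv_mul, one_mul] at h1
    rwa [mul_assoc _ (P : Matrix ι ι Z), Units.mul_inv, mul_one] at h1
  set Q : Matrix ι ι Z := (P⁻¹ : (Matrix ι ι Z)ˣ).1 with hQ
  have hPQ : (P : Matrix ι ι Z) * Q = 1 := P.mul_inv
  have hQP : Q * (P : Matrix ι ι Z) = 1 := P.inv_mul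
  let T : I →ₗ[Z] J := b.constr Z fun i => ∑ j, Q i j • c j
  let S : J →ₗ[Z] I := c.constr Z fun i => ∑ j, (P : Matrix ι ι Z) i j • b j
  have hTb : ∀ i, T (b i) = ∑ j, Q i j • c j := fun i => b.constr_basis Z _ i
  have hSc : ∀ i, S (c i) = ∑ j, (P : Matrix ι ι Z) i j • b j := fun i => c.constr_basis Z _ i
  have hTS : ∀ x, T (S x) = x := by
    intro x
    have : T ∘ₗ S = LinearMap.id := by
      refine c.ext fun i => ?_
      rw [LinearMap.comp_apply, hSc, map_sum, LinearMap.id_apply]
      simp only [map_smul, hTb, Finset.smul_sum, smul_smul]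
      rw [Finset.sum_comm]
      simp only [← Finset.sum_smul]
      have h2 : ∀ k, ∑ j, (P : Matrix ι ι Z) i j * Q j k = (1 : Matrix ι ι Z) i k := by
        intro k
        rw [← hPQ, Matrix.mul_apply]
      simp only [h2, Matrix.one_apply, ite_smul, one_smul, zero_smul, Finset.sum_ite_eq,
        Finset.mem_univ, if_true]
    exact LinearMap.congr_fun this x
  have hST : ∀ x, S (T x) = x := by
    intro x
    have : S ∘ₗ T = LinearMap.id := by
      refine b.ext fun i => ?_
      rw [LinearMap.comp_apply, hTb, map_sum, LinearMap.id_apply]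
      simp only [map_smul, hSc, Finset.smul_sum, smul_smul]
      rw [Finset.sum_comm]
      simp only [← Finset.sum_smul]
      have h2 : ∀ k, ∑ j, Q i j * (P : Matrix ι ι Z) j k = (1 : Matrix ι ι Z) i k := by
        intro k
        rw [← hQP, Matrix.mul_apply]
      simp only [h2, Matrix.one_apply, ite_smul, one_smul, zero_smul, Finset.sum_ite_eq,
        Finset.mem_univ, if_true]
    exact LinearMap.congr_fun this x
  -- `T` commutes with `θ`
  let M : I →ₗ[Z] I := (LinearMap.lsmul R I θ).restrictScalars Z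
  let N : J →ₗ[Z] J := (LinearMap.lsmul R J θ).restrictScalars Z
  have hM : ∀ a, M a = θ • a := fun a => rfl
  have hN : ∀ a, N a = θ • a := fun a => rfl
  have hTθ : ∀ a, T (θ • a) = θ • T a := by
    intro a
    have : T ∘ₗ M = N ∘ₗ T := by
      refine b.ext fun i => ?_
      rw [LinearMap.comp_apply, LinearMap.comp_apply, hM, hN, hb i, hTb, map_sum,
        Finset.smul_sum]
      simp only [map_smul, hTb, smul_comm θ, hc, Finset.smul_sum, smul_smul]
      rw [Finset.sum_comm]
      conv_rhs => rw [Finset.sum_comm]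
      simp only [← Finset.sum_smul]
      refine Finset.sum_congr rfl fun k _ => ?_
      rw [← Matrix.mul_apply, ← Matrix.mul_apply, hinv]
    exact LinearMap.congr_fun this a
  have hTR := commute_of_adjoin hθ T hTθ
  -- compare with a nonzero element
  obtain ⟨a, haI, ha⟩ := Submodule.exists_mem_ne_zero_of_ne_bot hI
  set a' : I := ⟨a, haI⟩ with ha'
  have ha0 : a' ≠ 0 := fun h0 => ha (congrArg Subtype.val h0)
  have hTa : T a' ≠ 0 := fun h0 => ha0 (by rw [← hST a', h0, map_zero])
  have hTa' : (T a' : R) ≠ 0 := fun h0 => hTa (Subtype.ext h0)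
  have hkey : ∀ z : I, a * (T z : R) = z * (T a' : R) := by
    intro z
    have h3 : T (a • z) = T ((z : R) • a') := by
      congr 1
      apply Subtype.ext
      change a * (z : R) = (z : R) * a
      ring
    rw [hTR, hTR] at h3
    exact congrArg Subtype.val h3
  refine ⟨(T a' : R), a, hTa', ha, ?_⟩
  apply le_antisymm
  · intro w hw
    obtain ⟨z, hz, rfl⟩ := Ideal.mem_span_singleton_mul.1 hw
    refine Ideal.mem_span_singleton_mul.2 ⟨(T ⟨z, hz⟩ : R), (T ⟨z, hz⟩).2, ?_⟩
    rw [hkey ⟨z, hz⟩, mul_comm]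
  · intro w hw
    obtain ⟨z, hz, rfl⟩ := Ideal.mem_span_singleton_mul.1 hw
    refine Ideal.mem_span_singleton_mul.2 ⟨(S ⟨z, hz⟩ : R), (S ⟨z, hz⟩).2, ?_⟩
    have h4 := hkey (S ⟨z, hz⟩)
    rw [hTS] at h4
    rw [h4, mul_comm]

/-- **Latimer - MacDuffee**: conjugacy in `GL_n(Z)` and the classes of ideals. -/
theorem isConj_iff_sameClass [IsDomain R] [DecidableEq ι] {θ : R}
    (hθ : Algebra.adjoin Z {θ} = ⊤) {A B : Matrix ι ι Z} {I J : Ideal R} (hI : I ≠ ⊥)
    (hA : Describes θ A I) (hB : Describes θ B J) : IsConj A B ↔ SameClass I J :=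
  ⟨sameClass_of_isConj hθ hI hA hB, fun h => isConj_of_describes (hA.of_sameClass h) hB⟩

/-- The characteristic polynomial of a matrix describing an ideal vanishes at `θ`. -/
theorem aeval_charpoly_of_describes [IsDomain R] [DecidableEq ι] {θ : R} {A : Matrix ι ι Z}
    {I : Ideal R} (hI : I ≠ ⊥) (hA : Describes θ A I) : aeval θ A.charpoly = 0 := by
  obtain ⟨b, hb⟩ := hA
  have h1 : aeval θ A.charpoly = (Matrix.scalar ι θ - A.map (algebraMap Z R)).det := by
    rw [← Matrix.eval_charpoly, Matrix.charpoly_map, eval_map_algebraMap]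
  rw [h1, ← Matrix.exists_mulVec_eq_zero_iff]
  refine ⟨fun i => (b i : R), ?_, ?_⟩
  · intro h0
    apply hI
    have h2 : ∀ i, b i = 0 := fun i => Subtype.ext (congrFun h0 i)
    rw [eq_bot_iff]
    intro x hx
    have h3 := b.sum_repr ⟨x, hx⟩
    simp only [h2, smul_zero, Finset.sum_const_zero] at h3
    exact (congrArg Subtype.val h3).symm
  · funext i
    have h4 := congrArg Subtype.val (hb i)
    have h5 : θ * (b i : R) = ∑ j, A i j • (b j : R) := by
      rw [← smul_eq_mul]
      simpa using h4
    rw [Matrix.sub_mulVec, Pi.sub_apply, Pi.zero_apply, sub_eq_zero]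
    rw [show (Matrix.scalar ι θ).mulVec (fun i => (b i : R)) i = θ * (b i : R) by
      simp [Matrix.scalar_apply, Matrix.mulVec_diagonal]]
    rw [h5]
    simp [Matrix.mulVec, dotProduct, Algebra.smul_def]

end Fermat.Agent.Cor.LM
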