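import Fermat.Agent.Corollaries.LM.Main

/-!
# Finiteness of the number of conjugacy classes of integral matrices

`finite_matClasses`: for every monic irreducible polynomial `f` with integral coefficients the
matrices in `M_n(ℤ)` with characteristic polynomial `f` form finitely many conjugacy classes
under `GL_n(ℤ)` (the theorem of Jordan and Zassenhaus for one matrix). The order `ℤ[θ]` need not
be maximal: `finite_idealClasses` compares its ideals with those of the ring of integers.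
-/

namespace Fermat.Agent.Cor.LM

open Polynomial Module NumberField nonZeroDivisors

/-- An order in a Dedekind domain with finite class group and finite residue rings has finitely
many classes of ideals. -/
theorem finite_of_hom {R O : Type*} [CommRing R] [IsDomain R] [CommRing O]
    [IsDedekindDomain O] [Finite (ClassGroup O)]
    (hfin : ∀ J : Ideal O, J ≠ ⊥ → Finite (O ⧸ J)) (φ : R →+* O)
    (hφ : Function.Injective φ) (m : R) (hm : m ≠ 0)
    (hmO : ∀ x : O, ∃ r : R, φ r = φ m * x) : Finite (Quotient (idealSetoid R)) := by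
  classical
  have := Fintype.ofFinite (ClassGroup O)
  have hne : ∀ r : R, r ≠ 0 → φ r ≠ 0 := fun r hr h => hr (hφ (by rw [h, map_zero]))
  choose J hJ using ClassGroup.mk0_surjective (R := O)
  set 𝔫 : Ideal O := Ideal.span {φ m} * ∏ c, (J c : Ideal O) with h𝔫def
  have h𝔫 : 𝔫 ≠ ⊥ := by
    refine mul_ne_zero ?_ (Finset.prod_ne_zero_iff.2 fun c _ => nonZeroDivisors.coe_ne_zero _)
    intro h
    exact hne m hm (Ideal.span_singleton_eq_bot.1 h)
  have hf𝔫 := hfin 𝔫 h𝔫
  have h𝔫J : ∀ c, 𝔫 ≤ Ideal.span {φ m} * (J c : Ideal O) := fun c =>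
    Ideal.mul_mono_right (Ideal.le_of_dvd (Finset.dvd_prod_of_mem _ (Finset.mem_univ c)))
  -- the data
  have hdata : ∀ I : {I : Ideal R // I ≠ ⊥}, ∃ (c : ClassGroup O) (x y : R), x ≠ 0 ∧ y ≠ 0 ∧
      Ideal.span {φ x} * (I.1.map φ) = Ideal.span {φ y} * (J c : Ideal O) := by
    rintro ⟨I, hI⟩
    have hIO : I.map φ ≠ ⊥ := by
      obtain ⟨a, haI, ha⟩ := Submodule.exists_mem_ne_zero_of_ne_bot hI
      intro h
      have h1 : φ a ∈ I.map φ := Ideal.mem_map_of_mem φ haI
      rw [h, Ideal.mem_bot] at h1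
      exact hne a ha h1
    let I' : (Ideal O)⁰ := ⟨I.map φ, mem_nonZeroDivisors_iff_ne_zero.2 hIO⟩
    have h1 : ClassGroup.mk0 I' = ClassGroup.mk0 (J (ClassGroup.mk0 I')) := (hJ _).symm
    obtain ⟨x, y, hx, hy, h2⟩ := ClassGroup.mk0_eq_mk0_iff.1 h1
    obtain ⟨rx, hrx⟩ := hmO x
    obtain ⟨ry, hry⟩ := hmO y
    refine ⟨ClassGroup.mk0 I', rx, ry, ?_, ?_, ?_⟩
    · rintro rfl
      rw [map_zero] at hrx
      exact mul_ne_zero (hne m hm) hx hrx.symm
    · rintro rfl
      rw [map_zero] at hry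
      exact mul_ne_zero (hne m hm) hy hry.symm
    · rw [hrx, hry, ← Ideal.span_singleton_mul_span_singleton,
        ← Ideal.span_singleton_mul_span_singleton, mul_assoc, mul_assoc]
      exact congrArg _ h2
  choose c x y hx hy hxy using hdata
  let L : {I : Ideal R // I ≠ ⊥} → Set O := fun I => {z | ∃ a ∈ I.1, φ (y I) * z = φ (x I) * φ a}
  have hmap : ∀ (I : Ideal R) (w : O), w ∈ I.map φ → ∀ t : O, ∃ a ∈ I,
      φ a = φ m * (t * w) := by
    intro I w hw
    induction hw using Submodule.span_induction with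
    | mem w hw =>
      obtain ⟨a, ha, rfl⟩ := hw
      intro t
      obtain ⟨r, hr⟩ := hmO t
      exact ⟨r * a, I.mul_mem_left _ ha, by rw [map_mul, hr, mul_assoc]⟩
    | zero => intro t; exact ⟨0, I.zero_mem, by rw [map_zero, mul_zero, mul_zero]⟩
    | add w w' _ _ hw hw' =>
      intro t
      obtain ⟨a, ha, h⟩ := hw t
      obtain ⟨a', ha', h'⟩ := hw' t
      exact ⟨a + a', I.add_mem ha ha', by rw [map_add, h, h', mul_add, mul_add]⟩
    | smul s w _ hw =>
      intro t
      obtain ⟨a, ha, h⟩ := hw (t * s)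
      exact ⟨a, ha, by rw [h, smul_eq_mul]; ring⟩
  -- `L I` contains `m J`
  have hL1 : ∀ (I : {I : Ideal R // I ≠ ⊥}) (z : O), z ∈ 𝔫 → z ∈ L I := by
    intro I z hz
    obtain ⟨j, hj, rfl⟩ := Ideal.mem_span_singleton_mul.1 (h𝔫J (c I) hz)
    have h1 : φ (y I) * j ∈ Ideal.span {φ (x I)} * (I.1.map φ) := by
      rw [hxy I]
      exact Ideal.mul_mem_mul (Ideal.mem_span_singleton_self _) hj
    obtain ⟨w, hw, h2⟩ := Ideal.mem_span_singleton_mul.1 h1
    obtain ⟨a, ha, h3⟩ := hmap I.1 w hw 1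
    refine ⟨a, ha, ?_⟩
    rw [h3, one_mul, mul_left_comm, ← h2]
    ring
  have hL2 : ∀ (I : {I : Ideal R // I ≠ ⊥}) (z z' : O), z ∈ L I → z' ∈ L I → z + z' ∈ L I := by
    rintro I z z' ⟨a, ha, h⟩ ⟨a', ha', h'⟩
    exact ⟨a + a', I.1.add_mem ha ha', by rw [map_add, mul_add, mul_add, h, h']⟩
  have hL3 : ∀ (I : {I : Ideal R // I ≠ ⊥}), ∀ a ∈ I.1, ∃ z : O,
      φ (y I) * z = φ (x I) * φ a := by
    intro I a ha
    have h1 : φ (x I) * φ a ∈ Ideal.span {φ (y I)} * (J (c I) : Ideal O) := by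
      rw [← hxy I]
      exact Ideal.mul_mem_mul (Ideal.mem_span_singleton_self _) (Ideal.mem_map_of_mem φ ha)
    obtain ⟨w, _, h2⟩ := Ideal.mem_span_singleton_mul.1 h1
    exact ⟨w, h2⟩
  let F : {I : Ideal R // I ≠ ⊥} → Set (O ⧸ 𝔫) := fun I => Ideal.Quotient.mk 𝔫 '' L I
  have hF : ∀ (I : {I : Ideal R // I ≠ ⊥}) (z : O), Ideal.Quotient.mk 𝔫 z ∈ F I ↔ z ∈ L I := by
    intro I z
    constructor
    · rintro ⟨z', hz', h⟩
      have h1 : z - z' ∈ 𝔫 := Ideal.Quotient.eq.1 h.symm
      have h2 := hL2 I _ _ (hL1 I _ h1) hz'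
      rwa [sub_add_cancel] at h2
    · intro hz
      exact ⟨z, hz, rfl⟩
  have hclass : ∀ I I' : {I : Ideal R // I ≠ ⊥}, F I = F I' → ∀ a ∈ I.1, ∃ a' ∈ I'.1,
      x I * y I' * a = x I' * y I * a' := by
    intro I I' hFF a ha
    obtain ⟨z, hz⟩ := hL3 I a ha
    have h1 : z ∈ L I' := by
      rw [← hF, ← hFF, hF]
      exact ⟨a, ha, hz⟩
    obtain ⟨a', ha', h2⟩ := h1
    refine ⟨a', ha', hφ ?_⟩
    rw [map_mul, map_mul, map_mul, map_mul]
    linear_combination (-φ (y I')) * hz + φ (y I) * h2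
  refine Finite.of_injective (fun q : Quotient (idealSetoid R) => F q.out) ?_
  intro q q' h
  have h1 : F q.out = F q'.out := h
  rw [← Quotient.out_eq q, ← Quotient.out_eq q']
  refine Quotient.sound ⟨x q.out * y q'.out, x q'.out * y q.out,
    mul_ne_zero (hx _) (hy _), mul_ne_zero (hx _) (hy _), ?_⟩
  apply le_antisymm
  · intro w hw
    obtain ⟨a, ha, rfl⟩ := Ideal.mem_span_singleton_mul.1 hw
    obtain ⟨a', ha', h2⟩ := hclass _ _ h1 a ha
    exact Ideal.mem_span_singleton_mul.2 ⟨a', ha', h2.symm⟩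
  · intro w hw
    obtain ⟨a, ha, rfl⟩ := Ideal.mem_span_singleton_mul.1 hw
    obtain ⟨a', ha', h2⟩ := hclass _ _ h1.symm a ha
    exact Ideal.mem_span_singleton_mul.2 ⟨a', ha', h2.symm⟩

/-- **Finiteness of the number of classes of ideals of an order `ℤ[θ]`.** -/
theorem finite_idealClasses {K : Type*} [Field K] [NumberField K] (B : PowerBasis ℚ K)
    (hint : IsIntegral ℤ B.gen) : Finite (Quotient (idealSetoid (Algebra.adjoin ℤ {B.gen}))) := by
  have hfin : Module.Finite ℤ (Algebra.adjoin ℤ {B.gen}) := (Algebra.adjoin.powerBasis' hint).finite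
  have hint' : Algebra.IsIntegral ℤ (Algebra.adjoin ℤ {B.gen}) := Algebra.IsIntegral.of_finite _ _
  let φ : Algebra.adjoin ℤ {B.gen} →ₐ[ℤ] 𝓞 K := IsIntegralClosure.lift ℤ (𝓞 K) K
  have hφ : ∀ r, algebraMap (𝓞 K) K (φ r) = (r : K) := fun r =>
    IsIntegralClosure.algebraMap_lift (R := ℤ) (A := 𝓞 K) (B := K) (r : Algebra.adjoin ℤ {B.gen})
  have hinj : Function.Injective φ := by
    intro r s h
    apply Subtype.ext
    rw [← hφ r, ← hφ s, h]
  -- the discriminant
  obtain ⟨d, hd⟩ : ∃ d : ℤ, Algebra.discr ℚ B.basis = d := by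
    have h1 : IsIntegral ℤ (Algebra.discr ℚ B.basis) :=
      Algebra.discr_isIntegral ℚ fun i => by
        rw [PowerBasis.basis_eq_pow]
        exact hint.pow _
    obtain ⟨d, hd⟩ := IsIntegrallyClosed.isIntegral_iff.1 h1
    exact ⟨d, by rw [← hd]; simp⟩
  have hd0 : d ≠ 0 := by
    intro h
    rw [h, Int.cast_zero] at hd
    exact Algebra.discr_not_zero_of_basis ℚ B.basis hd
  refine finite_of_hom (O := 𝓞 K) (fun J hJ => Ideal.finiteQuotientOfFreeOfNeBot J hJ)
    φ.toRingHom hinj (algebraMap ℤ _ d) ?_ ?_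
  · intro h
    apply hd0
    have h1 := congrArg (fun r : Algebra.adjoin ℤ {B.gen} => (r : K)) h
    simpa using h1
  · intro z
    have h2 := Algebra.discr_mul_isIntegral_mem_adjoin (K := ℚ) (R := ℤ) (L := K) (B := B) hint
      (RingOfIntegers.isIntegral_coe z)
    rw [hd] at h2
    refine ⟨⟨_, h2⟩, ?_⟩
    apply RingOfIntegers.coe_injective
    change algebraMap (𝓞 K) K (φ _) = algebraMap (𝓞 K) K (φ _ * z)
    rw [map_mul, hφ, hφ]
    simp [Algebra.smul_def]

/-- Finiteness of the number of conjugacy classes, with a given root of `f`. -/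
theorem finite_matClasses_of_root {K : Type*} [Field K] [NumberField K] (B : PowerBasis ℚ K)
    {f : ℤ[X]} (hf : f.Monic) (hirr : Irreducible f)
    (h0 : eval₂ (Int.castRingHom K) B.gen f = 0) :
    (ConjClasses.mk '' {A : Matrix (Fin f.natDegree) (Fin f.natDegree) ℤ |
      A.charpoly = f}).Finite := by
  have hint : IsIntegral ℤ B.gen := ⟨f, hf, h0⟩
  have hroot : aeval B.gen f = 0 := h0
  have hmin : minpoly ℤ B.gen = f := by
    have h1 := minpoly.isIntegrallyClosed_dvd hint hroot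
    have h2 : ¬ IsUnit (minpoly ℤ B.gen) := minpoly.not_isUnit ℤ B.gen
    have h3 : Associated f (minpoly ℤ B.gen) := (hirr.dvd_iff.1 h1).resolve_left h2
    exact (eq_of_monic_of_associated hf (minpoly.monic hint) h3).symm
  have hfin := finite_idealClasses B hint
  obtain ⟨e, -⟩ := latimer_macduffee (Algebra.adjoin.powerBasis' hint)
  have h4 : minpoly ℤ (Algebra.adjoin.powerBasis' hint).gen = f := by
    rw [← Algebra.adjoin.powerBasis'_minpoly_gen hint, hmin]
  have h5 : (Algebra.adjoin.powerBasis' hint).dim = f.natDegree := by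
    rw [← PowerBasis.natDegree_minpoly, h4]
  have h6 : Finite (matClasses (Algebra.adjoin.powerBasis' hint).dim
      (minpoly ℤ (Algebra.adjoin.powerBasis' hint).gen)) := Finite.of_equiv _ e.symm
  rw [h4, h5] at h6
  exact h6

/-- **The theorem of Jordan and Zassenhaus for one matrix**: for a monic irreducible `f` the
integral matrices with characteristic polynomial `f` form finitely many conjugacy classes under
`GL_n(ℤ)`. -/
theorem finite_matClasses {f : ℤ[X]} (hf : f.Monic) (hirr : Irreducible f) :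
    (ConjClasses.mk '' {A : Matrix (Fin f.natDegree) (Fin f.natDegree) ℤ |
      A.charpoly = f}).Finite := by
  have hirrQ : Irreducible (f.map (Int.castRingHom ℚ)) :=
    (IsPrimitive.Int.irreducible_iff_irreducible_map_cast hf.isPrimitive).1 hirr
  have : Fact (Irreducible (f.map (Int.castRingHom ℚ))) := ⟨hirrQ⟩
  let K := AdjoinRoot (f.map (Int.castRingHom ℚ))
  have hmon : (f.map (Int.castRingHom ℚ)).Monic := hf.map _
  let B : PowerBasis ℚ K := AdjoinRoot.powerBasis hmon.ne_zero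
  have hBfin : FiniteDimensional ℚ K := B.finite
  have hch : CharZero K := charZero_of_injective_algebraMap (algebraMap ℚ K).injective
  have hNF : NumberField K := ⟨⟩
  refine finite_matClasses_of_root (K := K) B hf hirr ?_
  have h1 : B.gen = AdjoinRoot.root (f.map (Int.castRingHom ℚ)) := AdjoinRoot.powerBasis_gen _
  have h2 : eval₂ (AdjoinRoot.of (f.map (Int.castRingHom ℚ)))
      (AdjoinRoot.root (f.map (Int.castRingHom ℚ))) (f.map (Int.castRingHom ℚ)) = 0 :=
    AdjoinRoot.eval₂_root _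
  rw [eval₂_map] at h2
  rw [h1, ← h2]
  congr 1

end Fermat.Agent.Cor.LM
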