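import Fermat.Agent.Corollaries.LM.Basic

/-!
# The theorem of Latimer and MacDuffee, II

* `latimer_macduffee`: `Z` a principal ideal domain, `R = Z[θ]` a domain, free of finite rank `n`
  over `Z`: the conjugacy classes of the matrices in `M_n(Z)` with characteristic polynomial
  `f = minpoly θ` correspond to the classes of the nonzero ideals of `R`;
* `card_conjClasses`: for the ring of integers of a number field, `𝓞 K = ℤ[θ]`: the number of the
  conjugacy classes of integral matrices with characteristic polynomial `f` is the class number;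
* `card_conjClasses_cyclotomic`: the case of the cyclotomic polynomials.
-/

namespace Fermat.Agent.Cor.LM

open Polynomial Module NumberField

variable {Z R : Type*} [CommRing Z] [IsDomain Z] [IsPrincipalIdealRing Z] [CommRing R]
  [IsDomain R] [Algebra Z R]

/-- Every nonzero ideal is described by a matrix. -/
theorem exists_matrix (pb : PowerBasis Z R) {I : Ideal R} (hI : I ≠ ⊥) :
    ∃ A : Matrix (Fin pb.dim) (Fin pb.dim) Z, Describes pb.gen A I :=
  ⟨fun i j => (I.selfBasis pb.basis hI).repr (pb.gen • I.selfBasis pb.basis hI i) j,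
    I.selfBasis pb.basis hI, fun _ => ((I.selfBasis pb.basis hI).sum_repr _).symm⟩

omit [IsPrincipalIdealRing Z] in
/-- The characteristic polynomial of a matrix describing an ideal. -/
theorem charpoly_eq (pb : PowerBasis Z R) {A : Matrix (Fin pb.dim) (Fin pb.dim) Z}
    {I : Ideal R} (hI : I ≠ ⊥) (hA : Describes pb.gen A I) :
    A.charpoly = minpoly Z pb.gen := by
  by_contra hne
  have hne' : A.charpoly - minpoly Z pb.gen ≠ 0 := sub_ne_zero.2 hne
  have h1 : aeval pb.gen (A.charpoly - minpoly Z pb.gen) = 0 := by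
    rw [map_sub, aeval_charpoly_of_describes hI hA, minpoly.aeval, sub_zero]
  have h2 := pb.dim_le_natDegree_of_root hne' h1
  have hd1 : A.charpoly.natDegree = pb.dim := by
    rw [Matrix.charpoly_natDegree_eq_dim, Fintype.card_fin]
  have hd2 : (minpoly Z pb.gen).natDegree = pb.dim := pb.natDegree_minpoly
  have hm1 : A.charpoly.Monic := A.charpoly_monic
  have hm2 : (minpoly Z pb.gen).Monic := minpoly.monic pb.isIntegral_gen
  have h3 : (A.charpoly - minpoly Z pb.gen).degree < A.charpoly.degree := by
    refine degree_sub_lt_left ?_ hm1.ne_zero (by rw [hm1.leadingCoeff, hm2.leadingCoeff])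
    rw [degree_eq_natDegree hm1.ne_zero, degree_eq_natDegree hm2.ne_zero, hd1, hd2]
  have h4 := natDegree_lt_natDegree hne' h3
  omega

/-- Every matrix with characteristic polynomial `f` describes an ideal. -/
theorem exists_ideal (pb : PowerBasis Z R) {A : Matrix (Fin pb.dim) (Fin pb.dim) Z}
    (hA : A.charpoly = minpoly Z pb.gen) : ∃ I : Ideal R, I ≠ ⊥ ∧ Describes pb.gen A I := by
  have h0 : (Matrix.scalar (Fin pb.dim) pb.gen - A.map (algebraMap Z R)).det = 0 := by
    rw [← Matrix.eval_charpoly, Matrix.charpoly_map, eval_map_algebraMap, hA, minpoly.aeval]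
  obtain ⟨v, hv, hAv⟩ := Matrix.exists_mulVec_eq_zero_iff.2 h0
  have hθ : ∀ i, pb.gen * v i = ∑ j, A i j • v j := by
    intro i
    have h1 := congrFun hAv i
    rw [Matrix.sub_mulVec, Pi.sub_apply, Pi.zero_apply, sub_eq_zero,
      show (Matrix.scalar (Fin pb.dim) pb.gen).mulVec v i = pb.gen * v i by
        simp [Matrix.scalar_apply, Matrix.mulVec_diagonal]] at h1
    rw [h1]
    simp [Matrix.mulVec, dotProduct, Algebra.smul_def]
  set V : Submodule Z R := Submodule.span Z (Set.range v) with hV
  have hvV : ∀ i, v i ∈ V := fun i => Submodule.subset_span ⟨i, rfl⟩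
  have hgen : ∀ x ∈ V, pb.gen * x ∈ V := by
    intro x hx
    induction hx using Submodule.span_induction with
    | mem x hx =>
      obtain ⟨i, rfl⟩ := hx
      rw [hθ]
      exact Submodule.sum_mem _ fun j _ => V.smul_mem _ (hvV j)
    | zero => rw [mul_zero]; exact V.zero_mem
    | add x y _ _ hx hy => rw [mul_add]; exact V.add_mem hx hy
    | smul z x _ hx => rw [mul_smul_comm]; exact V.smul_mem _ hx
  have hstable : ∀ r : R, ∀ x ∈ V, r * x ∈ V := by
    intro r
    have hr : r ∈ Algebra.adjoin Z {pb.gen} := pb.adjoin_gen_eq_top ▸ Algebra.mem_top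
    induction hr using Algebra.adjoin_induction with
    | mem x hx =>
      rw [Set.mem_singleton_iff] at hx
      subst hx
      exact hgen
    | algebraMap z =>
      intro x hx
      rw [← Algebra.smul_def]
      exact V.smul_mem _ hx
    | add r s _ _ hr hs => intro x hx; rw [add_mul]; exact V.add_mem (hr x hx) (hs x hx)
    | mul r s _ _ hr hs => intro x hx; rw [mul_assoc]; exact hr _ (hs _ hx)
  let I : Ideal R :=
    { carrier := V
      add_mem' := fun ha hb => V.add_mem ha hb
      zero_mem' := V.zero_mem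
      smul_mem' := fun r x hx => hstable r x hx }
  have hIV : ∀ x, x ∈ I ↔ x ∈ V := fun _ => Iff.rfl
  have hI : I ≠ ⊥ := by
    intro h
    apply hv
    funext i
    have : v i ∈ I := hvV i
    rw [h, Ideal.mem_bot] at this
    exact this
  let w : Fin pb.dim → I := fun i => ⟨v i, hvV i⟩
  have hspan : ⊤ ≤ Submodule.span Z (Set.range w) := by
    rintro ⟨x, hx⟩ -
    have hx' : x ∈ V := hx
    rw [hV, Submodule.mem_span_range_iff_exists_fun] at hx'
    obtain ⟨c, hc⟩ := hx'
    rw [Submodule.mem_span_range_iff_exists_fun]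
    refine ⟨c, Subtype.ext ?_⟩
    change ((∑ i, c i • w i : I) : R) = x
    rw [← hc]
    simp [w]
  have hli : LinearIndependent Z w := by
    rw [linearIndependent_iff_injective_fintypeLinearCombination]
    let e := (I.selfBasis pb.basis hI).equivFun
    have hsur : Function.Surjective (Fintype.linearCombination Z w) := by
      intro x
      have := hspan (Submodule.mem_top (x := x))
      rw [Submodule.mem_span_range_iff_exists_fun] at this
      obtain ⟨c, hc⟩ := this
      exact ⟨c, by rw [Fintype.linearCombination_apply]; exact hc⟩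
    have h5 : Function.Injective (e ∘ Fintype.linearCombination Z w) :=
      OrzechProperty.injective_of_surjective_endomorphism
        (e.toLinearMap ∘ₗ Fintype.linearCombination Z w) (e.surjective.comp hsur)
    exact Function.Injective.of_comp h5
  refine ⟨I, hI, Basis.mk hli hspan, fun i => ?_⟩
  simp only [Basis.mk_apply]
  apply Subtype.ext
  have := hθ i
  simpa [w] using this

/-- The classes of the nonzero ideals. -/
def idealSetoid (R : Type*) [CommRing R] [IsDomain R] : Setoid {I : Ideal R // I ≠ ⊥} where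
  r I J := SameClass (I : Ideal R) J
  iseqv := ⟨fun _ => SameClass.refl _, fun h => h.symm, fun h h' => h.trans h'⟩

/-- The conjugacy classes (under `GL_n(Z)`) of the matrices in `M_n(Z)` with characteristic
polynomial `f`. -/
def matClasses (n : ℕ) (f : Z[X]) : Set (ConjClasses (Matrix (Fin n) (Fin n) Z)) :=
  ConjClasses.mk '' {A | A.charpoly = f}

/-- **The theorem of Latimer and MacDuffee.** -/
theorem latimer_macduffee (pb : PowerBasis Z R) :
    ∃ e : matClasses pb.dim (minpoly Z pb.gen) ≃ Quotient (idealSetoid R),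
      ∀ (A : Matrix (Fin pb.dim) (Fin pb.dim) Z) (hA : A.charpoly = minpoly Z pb.gen)
        (I : {I : Ideal R // I ≠ ⊥}),
        e ⟨ConjClasses.mk A, A, hA, rfl⟩ = Quotient.mk _ I ↔ Describes pb.gen A I := by
  have hθ : Algebra.adjoin Z {pb.gen} = ⊤ := pb.adjoin_gen_eq_top
  have h1 : ∀ c : matClasses pb.dim (minpoly Z pb.gen), ∃ A : Matrix (Fin pb.dim) (Fin pb.dim) Z,
      ∃ I : {I : Ideal R // I ≠ ⊥}, A.charpoly = minpoly Z pb.gen ∧ ConjClasses.mk A = c.1 ∧
        Describes pb.gen A I := by
    rintro ⟨c, A, hA, rfl⟩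
    obtain ⟨I, hI, hd⟩ := exists_ideal pb hA
    exact ⟨A, ⟨I, hI⟩, hA, rfl, hd⟩
  choose M J hMf hMc hMJ using h1
  have hequiv : ∀ c (A : Matrix (Fin pb.dim) (Fin pb.dim) Z) (I : {I : Ideal R // I ≠ ⊥}),
      Describes pb.gen A I →
      (ConjClasses.mk A = c.1 ↔ SameClass (J c : Ideal R) I) := by
    intro c A I hA
    rw [← hMc c, ConjClasses.mk_eq_mk_iff_isConj, isConj_comm]
    exact isConj_iff_sameClass hθ (J c).2 (hMJ c) hA
  let e : matClasses pb.dim (minpoly Z pb.gen) ≃ Quotient (idealSetoid R) :=
    Equiv.ofBijective (fun c => Quotient.mk (idealSetoid R) (J c)) (by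
      constructor
      · intro c c' h
        have h2 : SameClass (J c : Ideal R) (J c') := Quotient.exact h
        have h3 := (hequiv c (M c') (J c') (hMJ c')).2 h2
        exact Subtype.ext (h3.symm.trans (hMc c'))
      · intro q
        obtain ⟨I, rfl⟩ := Quotient.exists_rep q
        obtain ⟨A, hA⟩ := exists_matrix pb I.2
        have hf := charpoly_eq pb I.2 hA
        refine ⟨⟨ConjClasses.mk A, A, hf, rfl⟩, Quotient.sound ?_⟩
        exact (hequiv _ A I hA).1 rfl)
  refine ⟨e, fun A hA I => ?_⟩
  have h4 : e ⟨ConjClasses.mk A, A, hA, rfl⟩ = Quotient.mk _ I ↔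
      SameClass (J ⟨ConjClasses.mk A, A, hA, rfl⟩ : Ideal R) I :=
    ⟨fun h => Quotient.exact h, fun h => Quotient.sound h⟩
  rw [h4]
  obtain ⟨I', hI', hd'⟩ := exists_ideal pb hA
  have h5 := (hequiv ⟨ConjClasses.mk A, A, hA, rfl⟩ A ⟨I', hI'⟩ hd').1 rfl
  constructor
  · intro h
    exact hd'.of_sameClass (h5.symm.trans h)
  · intro h
    exact (hequiv _ A I h).1 rfl

/-- For a Dedekind domain: the classes of the nonzero ideals form the class group. -/
theorem exists_equiv_classGroup (R : Type*) [CommRing R] [IsDedekindDomain R] :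
    Nonempty (Quotient (idealSetoid R) ≃ ClassGroup R) := by
  refine ⟨Equiv.ofBijective (Quotient.lift (fun I : {I : Ideal R // I ≠ ⊥} =>
    ClassGroup.mk0 ⟨(I : Ideal R), mem_nonZeroDivisors_iff_ne_zero.2 I.2⟩) ?_) ?_⟩
  · rintro I J ⟨x, y, hx, hy, h⟩
    exact ClassGroup.mk0_eq_mk0_iff.2 ⟨x, y, hx, hy, h⟩
  · constructor
    · intro q q' h
      obtain ⟨I, rfl⟩ := Quotient.exists_rep q
      obtain ⟨J, rfl⟩ := Quotient.exists_rep q'
      obtain ⟨x, y, hx, hy, h⟩ := ClassGroup.mk0_eq_mk0_iff.1 h
      exact Quotient.sound ⟨x, y, hx, hy, h⟩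
    · intro c
      obtain ⟨I, rfl⟩ := ClassGroup.mk0_surjective c
      exact ⟨Quotient.mk _ ⟨I, mem_nonZeroDivisors_iff_ne_zero.1 I.2⟩, rfl⟩

/-- **Latimer - MacDuffee for maximal orders**: `𝓞 K = ℤ[θ]`, `f` the minimal polynomial of `θ`:
the number of the conjugacy classes of integral matrices with characteristic polynomial `f` is
the class number of `K`. -/
theorem card_conjClasses (K : Type*) [Field K] [NumberField K] (pb : PowerBasis ℤ (𝓞 K)) :
    Nat.card (matClasses (Z := ℤ) pb.dim (minpoly ℤ pb.gen)) = classNumber K := by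
  obtain ⟨e, -⟩ := latimer_macduffee pb
  obtain ⟨e'⟩ := exists_equiv_classGroup (𝓞 K)
  rw [Nat.card_congr (e.trans e'), classNumber, Nat.card_eq_fintype_card]

/-- The same with the hypothesis on the generator and `n = [K : ℚ]`. -/
theorem ncard_conjClasses (K : Type*) [Field K] [NumberField K] {θ : 𝓞 K}
    (hθ : Algebra.adjoin ℤ {θ} = ⊤) :
    (ConjClasses.mk '' {A : Matrix (Fin (Module.finrank ℚ K)) (Fin (Module.finrank ℚ K)) ℤ |
      A.charpoly = minpoly ℤ θ}).ncard = classNumber K := by
  let pb : PowerBasis ℤ (𝓞 K) := PowerBasis.ofAdjoinEqTop' (RingOfIntegers.isIntegral θ) hθ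
  have hg : pb.gen = θ := PowerBasis.ofAdjoinEqTop'_gen _ _
  have hn : pb.dim = Module.finrank ℚ K := by
    rw [← PowerBasis.finrank pb, RingOfIntegers.rank]
  have h := card_conjClasses K pb
  rw [hg, hn] at h
  exact h

/-- The number of the conjugacy classes of integral matrices whose characteristic polynomial is
the cyclotomic polynomial `Φ_m` is the class number of the field of `m`-th roots of unity. -/
theorem card_conjClasses_cyclotomic (m : ℕ) [NeZero m] (K : Type*) [Field K] [NumberField K]
    [IsCyclotomicExtension {m} ℚ K] :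
    (ConjClasses.mk '' {A : Matrix (Fin m.totient) (Fin m.totient) ℤ |
      A.charpoly = cyclotomic m ℤ}).ncard = classNumber K := by
  have hζ := IsCyclotomicExtension.zeta_spec m ℚ K
  have h := card_conjClasses K hζ.integralPowerBasis
  have h1 : minpoly ℤ hζ.integralPowerBasis.gen = cyclotomic m ℤ := by
    rw [IsPrimitiveRoot.integralPowerBasis_gen]
    have h2 : minpoly ℤ (hζ.toInteger : 𝓞 K) = minpoly ℤ (algebraMap (𝓞 K) K hζ.toInteger) :=
      (minpoly.algebraMap_eq (RingOfIntegers.coe_injective) _).symm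
    rw [h2]
    exact (cyclotomic_eq_minpoly hζ (NeZero.pos m)).symm
  rw [h1, IsPrimitiveRoot.integralPowerBasis_dim] at h
  exact h

end Fermat.Agent.Cor.LM
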