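import Fermat.Agent.Corollaries.LM.Order
import Fermat.Agent.Corollaries.ZetaK.Kummer
import Fermat.Agent.Corollaries.SiegelL.Uchida

/-!
# The number of conjugacy classes of elements of order `p` in `GL_{p-1}(ℤ)`

* `finite_ncard_order_le`: it tends to infinity with `p`;
* `thirty_seven_dvd_ncard`: for `p = 37` it is divisible by 37.
-/

namespace Fermat.Agent.Cor.LM

open NumberField

/-- **The number of the conjugacy classes of the elements of order `p` in `GL_{p-1}(ℤ)` tends to
infinity with the prime `p`**: for every `H` only finitely many primes have at most `H`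
classes. -/
theorem finite_ncard_order_le (H : ℕ) :
    {p : ℕ | p.Prime ∧ (ConjClasses.mk '' {g : Matrix.GeneralLinearGroup (Fin (p - 1)) ℤ |
      orderOf g = p}).ncard ≤ H}.Finite := by
  refine ((SiegelL.finite_cyclotomic.{0} H).union (Set.finite_Iic 2)).subset ?_
  rintro p ⟨hp, hH⟩
  by_cases h2 : p ≤ 2
  · exact Or.inr h2
  left
  have := Fact.mk hp
  have : NeZero (p : ℚ) := ⟨by exact_mod_cast hp.ne_zero⟩
  have hcyc : IsCyclotomicExtension {p} ℚ (CyclotomicField p ℚ) :=
    CyclotomicField.isCyclotomicExtension p ℚ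
  refine ⟨by omega, CyclotomicField p ℚ, inferInstance, inferInstance, hcyc, ?_⟩
  rw [ncard_order (p := p) (CyclotomicField p ℚ)] at hH
  have h1 : 0 < classNumber (maximalRealSubfield (CyclotomicField p ℚ)) := Fintype.card_pos
  exact hH.trans (Nat.le_mul_of_pos_right H h1)

/-- The number of the conjugacy classes of the elements of order 37 in `GL₃₆(ℤ)` is divisible
by 37. -/
theorem thirty_seven_dvd_ncard :
    37 ∣ (ConjClasses.mk '' {g : Matrix.GeneralLinearGroup (Fin 36) ℤ |
      orderOf g = 37}).ncard := by
  have : Fact (Nat.Prime 37) := ⟨by norm_num⟩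
  have hcyc : IsCyclotomicExtension {37} ℚ (CyclotomicField 37 ℚ) :=
    CyclotomicField.isCyclotomicExtension 37 ℚ
  have h := ncard_order (p := 37) (CyclotomicField 37 ℚ)
  have h1 := Kummer.thirty_seven_dvd (CyclotomicField 37 ℚ)
  rw [← h] at h1
  exact h1

end Fermat.Agent.Cor.LM
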