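import Fermat.Agent.Corollaries.LM.Main

/-!
# The elements of order `p` in `GL_{p-1}(ℤ)`

* `orderOf_eq_iff`: a matrix in `M_{p-1}(ℤ)` has order `p` if and only if its characteristic
  polynomial is the cyclotomic polynomial `Φ_p`;
* `ncard_order`: the number of the conjugacy classes of the elements of order `p` in
  `GL_{p-1}(ℤ)` is the class number of the field of `p`-th roots of unity.
-/

namespace Fermat.Agent.Cor.LM

open Polynomial Module NumberField

variable {n : ℕ}

/-- A matrix of size `p - 1` over `ℤ` has order `p` if and only if its characteristic polynomial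
is `Φ_p`. -/
theorem orderOf_eq_iff {p : ℕ} [hp : Fact p.Prime] (hn : n = p - 1)
    (A : Matrix (Fin n) (Fin n) ℤ) : orderOf A = p ↔ A.charpoly = cyclotomic p ℤ := by
  have hp1 : 1 < p := hp.out.one_lt
  have hprod : (X ^ p - 1 : ℤ[X]) = (X - 1) * cyclotomic p ℤ := by
    rw [mul_comm]; exact (cyclotomic_prime_mul_X_sub_one ℤ p).symm
  have hprodQ : (X ^ p - 1 : ℚ[X]) = (X - 1) * cyclotomic p ℚ := by
    rw [mul_comm]; exact (cyclotomic_prime_mul_X_sub_one ℚ p).symm
  have : NeZero n := ⟨by omega⟩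
  constructor
  · intro h
    have hA : A ^ p = 1 := by rw [← h]; exact pow_orderOf_eq_one A
    have hA1 : A ≠ 1 := by
      intro h1
      rw [h1, orderOf_one] at h
      omega
    set B : Matrix (Fin n) (Fin n) ℚ := (Int.castRingHom ℚ).mapMatrix A with hB
    have hB1 : B ≠ 1 := by
      intro h1
      apply hA1
      ext i j
      have h2 := congrFun (congrFun h1 i) j
      rw [hB, RingHom.mapMatrix_apply, Matrix.map_apply, eq_intCast] at h2
      by_cases hij : i = j
      · subst hij
        rw [Matrix.one_apply_eq] at h2 ⊢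
        exact_mod_cast h2
      · rw [Matrix.one_apply_ne hij] at h2 ⊢
        exact_mod_cast h2
    have hBp : B ^ p = 1 := by rw [hB, ← map_pow, hA, map_one]
    have hirr : Irreducible (cyclotomic p ℚ) := cyclotomic.irreducible_rat hp.out.pos
    have hmin : minpoly ℚ B ∣ (X - 1) * cyclotomic p ℚ := by
      rw [← hprodQ]
      refine minpoly.dvd _ _ ?_
      rw [map_sub, map_pow, aeval_X, map_one, hBp, sub_self]
    have hdvd : cyclotomic p ℚ ∣ minpoly ℚ B := by
      by_contra hnd
      have hcop : IsCoprime (minpoly ℚ B) (cyclotomic p ℚ) :=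
        ((hirr.coprime_iff_not_dvd).2 hnd).symm
      have h3 : minpoly ℚ B ∣ X - 1 := hcop.dvd_of_dvd_mul_right hmin
      apply hB1
      obtain ⟨q, hq⟩ := h3
      have h4 : aeval B (X - 1 : ℚ[X]) = 0 := by rw [hq, map_mul, minpoly.aeval, zero_mul]
      rw [map_sub, aeval_X, map_one, sub_eq_zero] at h4
      exact h4
    have hdvd' : cyclotomic p ℚ ∣ B.charpoly := hdvd.trans B.minpoly_dvd_charpoly
    have hBc : B.charpoly = cyclotomic p ℚ := by
      refine eq_of_monic_of_dvd_of_natDegree_le (cyclotomic.monic p ℚ) B.charpoly_monic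
        hdvd' ?_
      rw [Matrix.charpoly_natDegree_eq_dim, Fintype.card_fin, natDegree_cyclotomic,
        Nat.totient_prime hp.out, hn]
    have h5 : A.charpoly.map (Int.castRingHom ℚ) =
        (cyclotomic p ℤ).map (Int.castRingHom ℚ) := by
      rw [← Matrix.charpoly_map, map_cyclotomic]
      exact hBc
    exact map_injective _ (RingHom.injective_int _) h5
  · intro h
    have hc : aeval A (cyclotomic p ℤ) = 0 := by rw [← h]; exact Matrix.aeval_self_charpoly A
    have hA : A ^ p = 1 := by
      have h1 : aeval A (X ^ p - 1 : ℤ[X]) = 0 := by rw [hprod, map_mul, hc, mul_zero]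
      rwa [map_sub, map_pow, aeval_X, map_one, sub_eq_zero] at h1
    refine orderOf_eq_prime hA ?_
    intro h1
    rw [h1, Matrix.charpoly_one, Fintype.card_fin] at h
    have h2 := congrArg (eval 1) h
    rw [eval_one_cyclotomic_prime, eval_pow, eval_sub, eval_X, eval_one, sub_self,
      zero_pow (NeZero.ne n)] at h2
    exact hp.out.ne_zero (by exact_mod_cast h2.symm)

/-- **The number of the conjugacy classes of the elements of order `p` in `GL_{p-1}(ℤ)` is the
class number of the field of `p`-th roots of unity.** -/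
theorem ncard_order {p : ℕ} [hp : Fact p.Prime] (K : Type*) [Field K] [NumberField K]
    [IsCyclotomicExtension {p} ℚ K] :
    (ConjClasses.mk '' {g : Matrix.GeneralLinearGroup (Fin (p - 1)) ℤ | orderOf g = p}).ncard =
      classNumber K := by
  have h := card_conjClasses_cyclotomic p K
  rw [Nat.totient_prime hp.out] at h
  rw [← h]
  -- from `GL` to matrices
  let φ : Matrix.GeneralLinearGroup (Fin (p - 1)) ℤ →* Matrix (Fin (p - 1)) (Fin (p - 1)) ℤ :=
    Units.coeHom _
  have hφ : ∀ g, φ g = (g : Matrix (Fin (p - 1)) (Fin (p - 1)) ℤ) := fun _ => rfl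
  have hinj : Function.Injective (ConjClasses.map φ) := by
    intro c c' hcc
    obtain ⟨g, rfl⟩ := ConjClasses.exists_rep c
    obtain ⟨g', rfl⟩ := ConjClasses.exists_rep c'
    have h1 : IsConj (φ g) (φ g') := ConjClasses.mk_eq_mk_iff_isConj.1 hcc
    obtain ⟨P, hP⟩ := h1
    refine ConjClasses.mk_eq_mk_iff_isConj.2 (isConj_iff.2 ⟨P, ?_⟩)
    rw [mul_inv_eq_iff_eq_mul]
    exact Units.ext hP
  rw [← Set.ncard_image_of_injective _ hinj]
  congr 1
  ext c
  constructor
  · rintro ⟨_, ⟨g, hg, rfl⟩, rfl⟩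
    refine ⟨φ g, ?_, rfl⟩
    have hg' : orderOf (φ g) = p := by
      rw [hφ, orderOf_units]; exact hg
    exact (orderOf_eq_iff rfl _).1 hg'
  · rintro ⟨A, hA, rfl⟩
    have hA' : orderOf A = p := (orderOf_eq_iff rfl _).2 hA
    have hAp : A ^ p = 1 := by
      have h9 := pow_orderOf_eq_one A
      rwa [hA'] at h9
    have hp0 : p ≠ 0 := hp.out.ne_zero
    obtain ⟨g, hg⟩ : ∃ g : Matrix.GeneralLinearGroup (Fin (p - 1)) ℤ, φ g = A :=
      ⟨Units.ofPowEqOne A p hAp hp0, rfl⟩
    refine ⟨ConjClasses.mk g, ⟨g, ?_, rfl⟩, ?_⟩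
    · change orderOf g = p
      rw [← orderOf_units, ← hφ, hg]
      exact hA'
    · rw [← hg]
      rfl

/-- If the field of `p`-th roots of unity has class number one, all elements of order `p` in
`GL_{p-1}(ℤ)` are conjugate. -/
theorem isConj_of_order {p : ℕ} [hp : Fact p.Prime] (K : Type*) [Field K] [NumberField K]
    [IsCyclotomicExtension {p} ℚ K] (h1 : classNumber K = 1)
    {g g' : Matrix.GeneralLinearGroup (Fin (p - 1)) ℤ} (hg : orderOf g = p)
    (hg' : orderOf g' = p) : IsConj g g' := by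
  have h := ncard_order (p := p) K
  rw [h1, Set.ncard_eq_one] at h
  obtain ⟨c, hc⟩ := h
  have h2 : ConjClasses.mk g ∈ ({c} : Set _) := hc ▸ ⟨g, hg, rfl⟩
  have h3 : ConjClasses.mk g' ∈ ({c} : Set _) := hc ▸ ⟨g', hg', rfl⟩
  exact ConjClasses.mk_eq_mk_iff_isConj.1 (h2.trans h3.symm)

/-- All elements of order five in `GL₄(ℤ)` are conjugate. -/
theorem isConj_order_five {g g' : Matrix.GeneralLinearGroup (Fin 4) ℤ} (hg : orderOf g = 5)
    (hg' : orderOf g' = 5) : IsConj g g' := by
  have : Fact (Nat.Prime 5) := ⟨by norm_num⟩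
  have hcyc : IsCyclotomicExtension {5} ℚ (CyclotomicField 5 ℚ) :=
    CyclotomicField.isCyclotomicExtension 5 ℚ
  have h5 := IsCyclotomicExtension.Rat.five_pid (CyclotomicField 5 ℚ)
  exact isConj_of_order (p := 5) (CyclotomicField 5 ℚ) (classNumber_eq_one_iff.2 h5) hg hg'

end Fermat.Agent.Cor.LM
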